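import Fermat.Agent.S17.H17.HContract
import Fermat.Agent.S17.H710.ConePoints

/-!
# S17 / tower H — the WALL (global route, architect helper710): definitions + FROZEN leaves

Sorry-free (definitions only).  Target of the wall: `HContract.Contract E E d₀` for ONE embedding
`E` with `4 g + 1 ≤ E.m` (`NC` is then trivial), `K` algebraically closed and algebraic over `ℚ`.
Blueprint: `coord/S17-WALL-helper710.md` (branch `origin/helper710`).

All `def … : Prop` below are FROZEN leaf statements: the owner proves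
`theorem xxx : XxxStatement …` in his own file; the assembly takes them as hypotheses.

Everything is phrased with explicit matrices of VALUES

* `betaMat u y s j = ∏ᵢ (uᵢ ∧ y_j)_{sᵢ}`  (value at `y_j` of `β_s = ∏ᵢ secForm (uᵢ) (sᵢ)`),
* `wMat W y (ρ, α) j = ⟨W ρ, y_j⟩ · ∏ₖ (y_j)_{αₖ}`  (value at `y_j` of `w_ρ · X^α`),

and the corresponding single columns `betaCol`, `wCol` (value at one more point) and `betaJet`,
`wJet` (first order jet at a point `z` in the direction `z'`).
-/

set_option autoImplicit false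

noncomputable section

namespace Fermat.Agent.S17.Wall

open AlgebraicCurve MvPolynomial
open Fermat.Agent.Lib.RR Fermat.Agent.S17.HWall Fermat.Agent.S17.H710
open Fermat.Agent.S17.HContract

variable {K F : Type*} [Field K] [Field F] [Algebra K F]

/-! ## Polynomial dictionary -/

/-- the linear form `Σ aᵢ Xᵢ` -/
def linForm {n : ℕ} (a : Fin n → K) : MvPolynomial (Fin n) K := ∑ i, C (a i) * X i

/-- the secant form `z ↦ (y ∧ z)_p = y_{p.1} z_{p.2} - y_{p.2} z_{p.1}`; it vanishes at `y` -/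
def secForm {n : ℕ} (y : Fin n → K) (p : Fin n × Fin n) : MvPolynomial (Fin n) K :=
  C (y p.1) * X p.2 - C (y p.2) * X p.1

/-- a product of secant forms, one for each of the points `y 0, …, y (d-1)` -/
def secProd {n d : ℕ} (y : Fin d → Fin n → K) (s : Fin d → Fin n × Fin n) :
    MvPolynomial (Fin n) K :=
  ∏ i, secForm (y i) (s i)

/-- the ordered monomial `∏ₖ X_{αₖ}` -/
def monoOrd {n e : ℕ} (α : Fin e → Fin n) : MvPolynomial (Fin n) K := ∏ k, X (α k)

theorem eval_linForm {n : ℕ} (a z : Fin n → K) : eval z (linForm a) = dot a z := by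
  simp [linForm, dot, dotProduct]

theorem eval_secForm {n : ℕ} (y z : Fin n → K) (p : Fin n × Fin n) :
    eval z (secForm y p) = wedge y z p := by
  simp [secForm, wedge]

theorem eval_secProd {n d : ℕ} (y : Fin d → Fin n → K) (s : Fin d → Fin n × Fin n)
    (z : Fin n → K) : eval z (secProd y s) = ∏ i, wedge (y i) z (s i) := by
  simp [secProd, eval_secForm]

theorem eval_monoOrd {n e : ℕ} (α : Fin e → Fin n) (z : Fin n → K) :
    eval z (monoOrd α) = ∏ k, z (α k) := by
  simp [monoOrd]

theorem linForm_isHomogeneous {n : ℕ} (a : Fin n → K) : (linForm a).IsHomogeneous 1 := by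
  unfold linForm
  refine IsHomogeneous.sum _ _ _ fun i _ => ?_
  simpa using (isHomogeneous_C (Fin n) (a i)).mul (isHomogeneous_X K i)

theorem secForm_isHomogeneous {n : ℕ} (y : Fin n → K) (p : Fin n × Fin n) :
    (secForm y p).IsHomogeneous 1 := by
  unfold secForm
  refine IsHomogeneous.sub ?_ ?_
  · simpa using (isHomogeneous_C (Fin n) (y p.1)).mul (isHomogeneous_X K p.2)
  · simpa using (isHomogeneous_C (Fin n) (y p.2)).mul (isHomogeneous_X K p.1)

theorem secProd_isHomogeneous {n d : ℕ} (y : Fin d → Fin n → K) (s : Fin d → Fin n × Fin n) :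
    (secProd y s).IsHomogeneous d := by
  unfold secProd
  have := IsHomogeneous.prod (Finset.univ : Finset (Fin d)) (fun i => secForm (y i) (s i))
    (fun _ => 1) (fun i _ => secForm_isHomogeneous (y i) (s i))
  simpa using this

theorem monoOrd_isHomogeneous {n e : ℕ} (α : Fin e → Fin n) :
    (monoOrd (K := K) α).IsHomogeneous e := by
  unfold monoOrd
  have := IsHomogeneous.prod (Finset.univ : Finset (Fin e))
    (fun k => (X (α k) : MvPolynomial (Fin n) K)) (fun _ => 1) (fun k _ => isHomogeneous_X K (α k))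
  simpa using this

/-! ## The matrices of values -/

/-- `betaMat u y s j = ∏ᵢ (uᵢ ∧ y_j)_{sᵢ}` : the value at `y_j` of `β_s = secProd u s`. -/
def betaMat {n d : ℕ} {c : Type*} (u : Fin d → Fin n → K) (y : c → Fin n → K) :
    (Fin d → Fin n × Fin n) → c → K :=
  fun s j => ∏ i, wedge (u i) (y j) (s i)

/-- `betaCol u z s = ∏ᵢ (uᵢ ∧ zᵢ)_{sᵢ}` (one point `zᵢ` per slot; value of `β_s` at `z` if
`zᵢ = z` for all `i`). -/
def betaCol {n d : ℕ} (u z : Fin d → Fin n → K) : (Fin d → Fin n × Fin n) → K :=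
  fun s => ∏ i, wedge (u i) (z i) (s i)

/-- first order jet of `β_s` at `z` in the direction `z'` -/
def betaJet {n d : ℕ} (u : Fin d → Fin n → K) (z z' : Fin n → K) :
    (Fin d → Fin n × Fin n) → K :=
  fun s => ∑ l, wedge (u l) z' (s l) * ∏ i ∈ Finset.univ.erase l, wedge (u i) z (s i)

/-- `wMat W y (ρ, α) j = ⟨W ρ, y_j⟩ ∏ₖ (y_j)_{αₖ}` : the value at `y_j` of `w_ρ · X^α`. -/
def wMat {n e : ℕ} {ρ c : Type*} (W : ρ → Fin n → K) (y : c → Fin n → K) :
    ρ × (Fin e → Fin n) → c → K :=
  fun t j => dot (W t.1) (y j) * ∏ k, y j (t.2 k)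

/-- value of `w_ρ · X^α` at `z` -/
def wCol {n e : ℕ} {ρ : Type*} (W : ρ → Fin n → K) (z : Fin n → K) :
    ρ × (Fin e → Fin n) → K :=
  fun t => dot (W t.1) z * ∏ k, z (t.2 k)

/-- first order jet of `w_ρ · X^α` at `z` in the direction `z'` -/
def wJet {n e : ℕ} {ρ : Type*} (W : ρ → Fin n → K) (z z' : Fin n → K) :
    ρ × (Fin e → Fin n) → K :=
  fun t => dot (W t.1) z' * ∏ k, z (t.2 k) +
    dot (W t.1) z * ∑ l, z' (t.2 l) * ∏ k ∈ Finset.univ.erase l, z (t.2 k)

/-- the stacked matrix `[U | ψu ; W | ψw]` (columns `c ⊕ Unit`) -/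
def stack {σ τ c : Type*} (U : σ → c → K) (ψu : σ → K) (W : τ → c → K) (ψw : τ → K) :
    σ ⊕ τ → c ⊕ Unit → K :=
  Sum.elim (fun s => Sum.elim (U s) fun _ => ψu s) (fun t => Sum.elim (W t) fun _ => ψw t)

/-- the vector of all `κ × κ` minors -/
def minors {σ c : Type*} (κ : ℕ) (U : σ → c → K) : (Fin κ → σ) × (Fin κ → c) → K :=
  fun p => (Matrix.of fun i j => U (p.1 i) (p.2 j)).det

theorem betaMat_eq_eval {n d : ℕ} {c : Type*} (u : Fin d → Fin n → K) (y : c → Fin n → K)
    (s : Fin d → Fin n × Fin n) (j : c) : betaMat u y s j = eval (y j) (secProd u s) :=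
  (eval_secProd u s (y j)).symm

theorem wMat_eq_eval {n e : ℕ} {ρ c : Type*} (W : ρ → Fin n → K) (y : c → Fin n → K)
    (t : ρ × (Fin e → Fin n)) (j : c) :
    wMat W y t j = eval (y j) (linForm (W t.1) * monoOrd t.2) := by
  simp [wMat, eval_linForm, eval_monoOrd]

/-- functional multihomogeneity of multidegree `(N, …, N)` in `d` blocks of `n` variables -/
def MultiHom {n d : ℕ} (p : MvPolynomial (Fin d × Fin n) K) (N : ℕ) : Prop :=
  ∀ (y : Fin d → Fin n → K) (c : Fin d → K),
    eval (fun q : Fin d × Fin n => c q.1 * y q.1 q.2) p =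
      (∏ l, c l ^ N) * eval (fun q : Fin d × Fin n => y q.1 q.2) p

/-! ## A leaves: linear algebra + absolute heights (Mathlib + S17/H380 + S17/H917 only) -/

section A

variable (K) [CharZero K]

/-- **A1 (CRAMER + HEIGHTS).**  If all rows of `[U | ψu ; W | ψw]` lie in a space of dimension
`≤ κ`, some `κ`-minor of `U` is nonzero and `ψw ≠ 0`, then
`h(κ-minors of U) + h(ψw) ≤ (κ-1) h(U) + h(W) + h(ψu) + C`, `C = C(κ, σ, τ, c)`.
Proof: `H917.cramer_identity_matrix` gives
`det U_{S,T} · ψw t = Σᵢ det (U_{S,T}[row i ← W t ∘ T]) · ψu (S i)`; the LHS vector is a Segre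
product (`H380.absLogHeight_fun_mul_eq`), the RHS a fixed multilinear map with integer
coefficients in `(U, …, U, W, ψu)` (`H380.absLogHeight_multilinear_apply_le`). -/
def CramerHeightStatement : Prop :=
  ∀ (κ : ℕ) (σ τ c : Type) [Fintype σ] [Fintype τ] [Fintype c],
    ∃ C : ℝ, ∀ (U : σ → c → K) (ψu : σ → K) (W : τ → c → K) (ψw : τ → K),
      Module.finrank K (Submodule.span K (Set.range (stack U ψu W ψw))) ≤ κ →
      minors κ U ≠ 0 → ψw ≠ 0 →
      ht (minors κ U) + ht ψw
        ≤ ((κ - 1 : ℕ) : ℝ) * ht (fun q : σ × c => U q.1 q.2)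
          + ht (fun q : τ × c => W q.1 q.2) + ht ψu + C

/-- **A2 (MINOR).**  A matrix whose rows span a space of dimension `κ` has a nonzero
`κ × κ` minor. -/
def MinorStatement : Prop :=
  ∀ (σ c : Type) [Finite c] (κ : ℕ) (B : σ → c → K),
    Module.finrank K (Submodule.span K (Set.range B)) = κ → minors κ B ≠ 0

/-- **A3 (MULTI-SLOT NULLSTELLENSATZ LOWER BOUND, absolute heights).**  `rel` = homogeneous
equations of a cone in `K^n`; `p j` multihomogeneous of multidegree `(N, …, N)` in `d` slots,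
without common zero on `(cone ∖ 0)^d`.  Then `N Σ_l h(y_l) ≤ h(p(y)) + C` on `(cone ∖ 0)^d`.
Proof: Nullstellensatz certificate `Σ_j q_{k,j} p_j ≡ ∏_l Y_{l,k_l}^{M+N}` modulo the equations
(multihomogeneous components), all coefficients in ONE number field; Segre
(`H380.absLogHeight_fun_prod_eq`) + `H380.absLogHeight_eval_ge` at the tensor `⊗ y_l`.
`d = 1`, `rel = ∅` is the plain projective case. -/
def MultislotStatement : Prop :=
  ∀ (n d : ℕ) (ι' : Type) [Fintype ι'] (rel : Set (MvPolynomial (Fin n) K)),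
    (∀ G ∈ rel, ∃ e : ℕ, G.IsHomogeneous e) →
    ∀ (p : ι' → MvPolynomial (Fin d × Fin n) K) (N : ℕ), (∀ j, MultiHom (p j) N) →
    (∀ y : Fin d → Fin n → K, (∀ l, y l ≠ 0) → (∀ l, ∀ G ∈ rel, eval (y l) G = 0) →
      ∃ j, eval (fun q : Fin d × Fin n => y q.1 q.2) (p j) ≠ 0) →
    ∃ C : ℝ, ∀ y : Fin d → Fin n → K, (∀ l, y l ≠ 0) → (∀ l, ∀ G ∈ rel, eval (y l) G = 0) →
      (N : ℝ) * ∑ l, ht (y l) ≤
        ht (fun j => eval (fun q : Fin d × Fin n => y q.1 q.2) (p j)) + C

/-- **A4 (upper bound for `betaMat`).**  `betaMat u y` is multilinear in `u` with coefficients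
depending on the FIXED points `y` only (`H380.absLogHeight_multilinear_apply_le`). -/
def HtBetaMatStatement : Prop :=
  ∀ (n d : ℕ) (c : Type) [Fintype c] (y : c → Fin n → K),
    ∃ C : ℝ, ∀ u : Fin d → Fin n → K,
      ht (fun q : (Fin d → Fin n × Fin n) × c => betaMat u y q.1 q.2) ≤ ∑ i, ht (u i) + C

/-- **A5 (upper bound for `wMat`).**  `wMat W y` is linear in `W`. -/
def HtWMatStatement : Prop :=
  ∀ (n e : ℕ) (ρ c : Type) [Fintype ρ] [Fintype c] (y : c → Fin n → K),
    ∃ C : ℝ, ∀ W : ρ → Fin n → K,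
      ht (fun q : (ρ × (Fin e → Fin n)) × c => wMat W y q.1 q.2)
        ≤ ht (fun q : ρ × Fin n => W q.1 q.2) + C

/-- **A6 (Segre, exact).** -/
def HtBetaColStatement : Prop :=
  ∀ (n d : ℕ) (u z : Fin d → Fin n → K), (∀ i, wedge (u i) (z i) ≠ 0) →
    ht (betaCol u z) = ∑ i, ht (wedge (u i) (z i))

/-- **A7 (Segre, exact).**  `h(v ⊗ z^{⊗e}) = h(v) + e h(z)`. -/
def HtWColStatement : Prop :=
  ∀ (n e : ℕ) (ρ : Type) [Fintype ρ] (v : ρ → K) (z : Fin n → K), v ≠ 0 → z ≠ 0 →
    ht (fun t : ρ × (Fin e → Fin n) => v t.1 * ∏ k, z (t.2 k)) = ht v + (e : ℝ) * ht z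

/-- **A8.**  The `κ`-minors of `betaMat · y` as multihomogeneous polynomials in the `d` slots. -/
def MinorPolyBetaStatement : Prop :=
  ∀ (n d : ℕ) (c : Type) [Fintype c] (y : c → Fin n → K) (κ : ℕ),
    ∃ p : (Fin κ → (Fin d → Fin n × Fin n)) × (Fin κ → c) → MvPolynomial (Fin d × Fin n) K,
      (∀ j, MultiHom (p j) κ) ∧
      ∀ (u : Fin d → Fin n → K) j,
        eval (fun q : Fin d × Fin n => u q.1 q.2) (p j) = minors κ (betaMat u y) j

/-- **A9.**  The `κ`-minors of `wMat (fun _ : Unit => a) y` as homogeneous polynomials in `a`. -/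
def MinorPolyAStatement : Prop :=
  ∀ (n e : ℕ) (c : Type) [Fintype c] (y : c → Fin n → K) (κ : ℕ),
    ∃ p : (Fin κ → (Unit × (Fin e → Fin n))) × (Fin κ → c) → MvPolynomial (Fin 1 × Fin n) K,
      (∀ j, MultiHom (p j) κ) ∧
      ∀ (a : Fin n → K) j,
        eval (fun q : Fin 1 × Fin n => a q.2) (p j) =
          minors κ (wMat (e := e) (fun _ : Unit => a) y) j

/-- **A10 (PLUCKER / LAPLACE).**  `ω = y₀ ∧ … ∧ y_{d-1}`; the coordinates of `ω ∧ z` are linear
forms `W e` in `z`, which vanish at the `yᵢ` and are fixed integer combinations of the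
coordinates of `ω` (Laplace expansion along the last row; `h(W) ≤ h(ω) + C` by
`H380.absLogHeight_linearMap_apply_le`). -/
def PluckerStepStatement : Prop :=
  ∀ (n d : ℕ), ∃ C : ℝ, ∀ (y : Fin d → Fin n → K),
    ∃ W : (Fin (d + 1) ↪ Fin n) → Fin n → K,
      (∀ e i, dot (W e) (y i) = 0) ∧
      (∀ (z : Fin n → K) e, dot (W e) z = plucker (Fin.snoc y z : Fin (d + 1) → Fin n → K) e) ∧
      ht (fun q : (Fin (d + 1) ↪ Fin n) × Fin n => W q.1 q.2) ≤ ht (plucker y) + C

end A

/-! ## G leaves: geometry of the embedded curve (`FF1`, Lib/RR; no heights) -/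

section G

variable [FF1 K F]

/-- `κ_k = dim L(k m ∞ - D)` for an effective divisor `D` of degree `k` -/
def kapN (E : EmbData K F) (k : ℕ) : ℕ := k * E.m - k + 1 - genusR K F

/-- the standing hypothesis of the wall -/
def Big (E : EmbData K F) : Prop := 4 * genusR K F + 1 ≤ E.m

/-- the zero divisor of the section `aeval E.x G` of `O(d m ∞)` (junk `0` if the section is `0`) -/
def zdiv (E : EmbData K F) (d : ℕ) (G : MvPolynomial (Fin (E.r + 1)) K) : Divisor K F :=
  haveI := Classical.propDecidable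
  if h : aeval E.x G = 0 then 0 else divOf (aeval E.x G) h + (d * E.m) • prim E.vinf

/-- **G-PT.**  (1) `pt P ≠ 0`; (2) `pt P` lies on the cone of the relations of `E.x`;
(3) distinct places have non-proportional coordinate vectors; (4) `pt P ∧ tn P ≠ 0`. -/
def PtStatement (E : EmbData K F) : Prop :=
  (∀ P : Place K F, E.pt P ≠ 0) ∧ (∀ P : Place K F, OnCone E.x (E.pt P)) ∧
  (∀ P Q : Place K F, P ≠ Q → wedge (E.pt P) (E.pt Q) ≠ 0) ∧
  (∀ P : Place K F, wedge (E.pt P) (E.tn P) ≠ 0)

/-- **G-CONE (= G1 + glue; core `exists_place_of_onCone` in `S17/H710/ConePoints.lean`).**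
Points of the cone are places. -/
def ConeStatement (E : EmbData K F) : Prop :=
  ∀ y : Fin (E.r + 1) → K, y ≠ 0 → OnCone E.x y →
    ∃ (P : Place K F) (c : K), c ≠ 0 ∧ y = c • E.pt P

/-- **G-ENUM.**  Enumeration of an effective divisor with multiplicities. -/
def EnumStatement (K F : Type*) [Field K] [Field F] [Algebra K F] [FF1 K F] : Prop :=
  ∀ D : Divisor K F, 0 ≤ D → ∀ k : ℕ, Divisor.degree D = k →
    ∃ A : Fin k → Place K F, D = ∑ i, prim (A i)

/-- **G-INF.**  There are infinitely many places. -/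
def InfStatement (K F : Type*) [Field K] [Field F] [Algebra K F] [FF1 K F] : Prop :=
  ∀ L : ℕ, ∃ Q : Fin L → Place K F, Function.Injective Q

/-- **G-INDEP.**  At most `m - 2g + 1` distinct places have linearly independent coordinate
vectors (Riemann–Roch). -/
def IndepStatement (E : EmbData K F) : Prop :=
  ∀ (d : ℕ) (P : Fin d → Place K F), d + 2 * genusR K F ≤ E.m + 1 → Function.Injective P →
    plucker (fun i => E.pt (P i)) ≠ 0

/-- **G-RANK.**  `A : Fin k → Place` arbitrary, `W ρ` linear forms vanishing on `ΣAᵢ`.  For ANY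
finite family `y` of points of the cone and one more point `z` of the cone, the rows `β_s` and
`w_ρ X^α` (`|α| = k - 1`) of the evaluation matrix span a space of dimension `≤ κ_k`
(they are the values of elements of `L(km∞ - ΣAᵢ)`, of dimension `κ_k`, and evaluation at a
point of the cone factors through `F`). -/
def RankStatement (E : EmbData K F) : Prop :=
  ∀ (k : ℕ) (A : Fin k → Place K F) (ρ : Type) [Fintype ρ] (W : ρ → Fin (E.r + 1) → K),
    1 ≤ k → (∀ r, W r ≠ 0 → ∑ l, prim (A l) ≤ E.Z (W r)) →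
    ∀ (c : Type) [Fintype c] (y : c → Fin (E.r + 1) → K) (z : Fin (E.r + 1) → K),
      (∀ j, OnCone E.x (y j)) → OnCone E.x z →
      Module.finrank K (Submodule.span K (Set.range
        (stack (betaMat (fun i => E.pt (A i)) y) (betaCol (fun i => E.pt (A i)) fun _ => z)
          (wMat (e := k - 1) W y) (wCol W z)))) ≤ kapN E k

/-- **G-RANK-JET.**  The same with the extra column replaced by the first order jet at a place
`P` (`jets kill the homogeneous relations of E.x`: the tangent line of the embedded curve). -/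
def RankJetStatement (E : EmbData K F) : Prop :=
  ∀ (k : ℕ) (A : Fin k → Place K F) (ρ : Type) [Fintype ρ] (W : ρ → Fin (E.r + 1) → K),
    1 ≤ k → (∀ r, W r ≠ 0 → ∑ l, prim (A l) ≤ E.Z (W r)) →
    ∀ (c : Type) [Fintype c] (y : c → Fin (E.r + 1) → K) (P : Place K F),
      (∀ j, OnCone E.x (y j)) →
      Module.finrank K (Submodule.span K (Set.range
        (stack (betaMat (fun i => E.pt (A i)) y) (betaJet (fun i => E.pt (A i)) (E.pt P) (E.tn P))
          (wMat (e := k - 1) W y) (wJet W (E.pt P) (E.tn P))))) ≤ kapN E k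

/-- **G-MINOR-β.**  For ANY `L > k m` distinct places `Q_t` and EVERY `k`-tuple `A` of places
(coincidences allowed) the matrix `betaMat (pt ∘ A) (pt ∘ Q)` has rank `κ_k`
(products of secant forms span `L(km∞ - ΣAᵢ)` [bpf pencil trick, `Lib/RR/H259.L_mul_L`];
evaluation at `> km` places is injective on `L(km∞)`). -/
def MinorBetaStatement (E : EmbData K F) : Prop :=
  ∀ (k L : ℕ) (Q : Fin L → Place K F), 1 ≤ k → Function.Injective Q → k * E.m < L →
    ∀ A : Fin k → Place K F,
      Module.finrank K (Submodule.span K (Set.range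
        (betaMat (fun i => E.pt (A i)) fun t => E.pt (Q t)))) = kapN E k

/-- **G-MINOR-a.**  For ANY `L > m²` distinct places `Q_t` and every `a ≠ 0` the matrix of the
rows `a X^α`, `|α| = m - 1`, has rank `κ_m` (projective normality `(V_m)^{m-1} = V_{m(m-1)}` and
`F` is a domain). -/
def MinorAStatement (E : EmbData K F) : Prop :=
  ∀ (L : ℕ) (Q : Fin L → Place K F), Function.Injective Q → E.m * E.m < L →
    ∀ a : Fin (E.r + 1) → K, a ≠ 0 →
      Module.finrank K (Submodule.span K (Set.range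
        (wMat (e := E.m - 1) (fun _ : Unit => a) fun t => E.pt (Q t)))) = kapN E E.m

end G

end Fermat.Agent.S17.Wall
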