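import Fermat.Agent.S17.H710.Wall.Vdm
import Fermat.Agent.S17.H380.WallHt
import Fermat.Agent.S17.H410.MinorPoly
import Fermat.Agent.S17.H440.PtCone
import Fermat.Agent.S17.H980.WallIndep
import Fermat.Agent.S17.H860.WallA1
import Fermat.Agent.S17.H317.MinorBeta
import Fermat.Agent.S17.H317.MinorA
import Fermat.Agent.S17.H230.Rank
import Fermat.Agent.S17.H740.Multislot

/-!
# S17 / tower H — THE WALL, unconditional (architect helper710).  Sorry-free.

`K` algebraically closed and algebraic over `ℚ`, `F / K` a function field with `FF1 K F`,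
`E : EmbData K F` with `Big E : 4 g + 1 ≤ E.m`:

* `leaves E hE : Leaves E` — all 19 leaves of `Wall/Defs.lean`, from main
  (A1 H860, A2 H980, A3 H740, A4–A7 H380, A8–A9 H410, A10 H980, G-PT/G-CONE H440,
  G-ENUM/G-INF/G-INDEP H980, G-RANK/G-RANK-JET H230, G-MINOR-β/G-MINOR-a H317);
* `e3_main`, `adj_main`, `vdm_main` — `(E3)`, `(ADJ)`, `(VDM)` of `HContract`, UNCONDITIONAL;
* `contract_main` — the contract from `(GAUSS)`.
-/

set_option autoImplicit false

noncomputable section

namespace Fermat.Agent.S17.Wall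

open AlgebraicCurve MvPolynomial
open Fermat.Agent.Lib.RR Fermat.Agent.S17.HWall Fermat.Agent.S17.H710
open Fermat.Agent.S17.HContract

variable {K F : Type*} [Field K] [CharZero K] [Field F] [Algebra K F] [FF1 K F]
variable [IsAlgClosed K] [Algebra.IsAlgebraic ℚ K]

/-- all the leaves of the wall -/
theorem leaves (E : EmbData K F) (hE : Big E) : Leaves E where
  a1 := Fermat.Agent.S17.H860.cramerHeightStatement K
  a2 := Fermat.Agent.S17.H980.minorStatement K
  a3 := Fermat.Agent.S17.H740.multislot K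
  a4 := Fermat.Agent.S17.H380.htBetaMat K
  a5 := Fermat.Agent.S17.H380.htWMat K
  a6 := Fermat.Agent.S17.H380.htBetaCol K
  a7 := Fermat.Agent.S17.H380.htWCol K
  a8 := Fermat.Agent.S17.H410.minorPolyBeta K
  a9 := Fermat.Agent.S17.H410.minorPolyA K
  a10 := Fermat.Agent.S17.H980.pluckerStepStatement K (fun a => Algebra.IsIntegral.isIntegral a)
  pt := Fermat.Agent.S17.H440.ptStatement E
  cone := Fermat.Agent.S17.H440.coneStatement E
  enum := Fermat.Agent.S17.H980.enum
  inf := Fermat.Agent.S17.H980.inf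
  indep := Fermat.Agent.S17.H980.indep E
  rank := Fermat.Agent.S17.H230.rank E
  rankJet := Fermat.Agent.S17.H230.rankJet E
  minorBeta := Fermat.Agent.S17.H317.minorBeta E hE
  minorA := Fermat.Agent.S17.H317.minorA E hE

/-- **(E3)**: `|(Z_a . P) − h(a) − h(P)| ≤ C` for all `a ≠ 0`, `P ∉ Z_a`. -/
theorem e3_main (E : EmbData K F) (hE : Big E) : E3Statement E E :=
  e3 E hE (leaves E hE)

/-- **(ADJ)**: `(E3)` at a simple zero, regularised by `κ`. -/
theorem adj_main (E : EmbData K F) (hE : Big E) : ADJStatement E E :=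
  adj E hE (leaves E hE)

/-- **(VDM)** for at most `m − 2g + 1` distinct points. -/
theorem vdm_main (E : EmbData K F) (hE : Big E) (d₀ : ℕ)
    (hd : d₀ + 2 * genusR K F ≤ E.m + 1) : VDMStatement E E d₀ :=
  vdm E hE (leaves E hE) d₀ hd

/-- **THE WALL**: the contract, from `(GAUSS)`. -/
theorem contract_main (E : EmbData K F) (hE : Big E) (hG : GAUSSStatement E) (d₀ : ℕ)
    (hd : d₀ + 2 * genusR K F ≤ E.m + 1) : Contract E E d₀ :=
  contract E hE (leaves E hE) hG d₀ hd

end Fermat.Agent.S17.Wall
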