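import Fermat.Agent.S17.H710.Wall.Core

/-!
# S17 / tower H — the WALL: `(E3)` from the leaves (helper710).  Sorry-free.
-/

set_option autoImplicit false

noncomputable section

namespace Fermat.Agent.S17.Wall

open AlgebraicCurve MvPolynomial
open Fermat.Agent.Lib.RR Fermat.Agent.S17.HWall Fermat.Agent.S17.H710
open Fermat.Agent.S17.HContract

variable {K F : Type*} [Field K] [CharZero K] [Field F] [Algebra K F]

/-! ## heights of small tuples -/

theorem ht_one {ι : Type*} [Finite ι] : ht (1 : ι → K) = 0 := by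
  have h := Fermat.Agent.S17.H380.absLogHeight_eq (A := K) (algebraMap ℚ K) (1 : ι → ℚ)
  simp only [Pi.one_apply, map_one, Height.logHeight_one, mul_zero] at h
  exact h

theorem ht_const [Algebra.IsAlgebraic ℚ K] {ι : Type*} [Finite ι] {b : K} (hb : b ≠ 0) :
    ht (fun _ : ι => b) = 0 := by
  have h := Fermat.Agent.S17.H380.absLogHeight_smul (1 : ι → K)
    (fun _ => isIntegral_one) hb (Algebra.IsIntegral.isIntegral b)
  have e : b • (1 : ι → K) = fun _ : ι => b := by
    funext i; simp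
  rw [e] at h
  rw [ht, h]
  exact ht_one

theorem ht_unitProd {n : ℕ} (a : Fin n → K) :
    ht (fun q : Unit × Fin n => a q.2) = ht a := by
  have := Fermat.Agent.S17.H380.absLogHeight_comp_equiv (Equiv.punitProd (Fin n)) a
  simpa [Function.comp_def] using this

/-! ## nonvanishing of the columns -/

theorem betaCol_ne_zero {n d : ℕ} (u z : Fin d → Fin n → K)
    (h : ∀ i, wedge (u i) (z i) ≠ 0) : betaCol u z ≠ 0 := by
  have h' : ∀ i, ∃ p, wedge (u i) (z i) p ≠ 0 := fun i => Function.ne_iff.mp (h i)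
  choose s hs using h'
  intro h0
  have := congrFun h0 s
  simp only [betaCol, Pi.zero_apply] at this
  exact (Finset.prod_ne_zero_iff.mpr fun i _ => hs i) this

theorem tensorPow_ne_zero {n e : ℕ} {ρ : Type*} (v : ρ → K) (z : Fin n → K) (hv : v ≠ 0)
    (hz : z ≠ 0) : (fun t : ρ × (Fin e → Fin n) => v t.1 * ∏ k, z (t.2 k)) ≠ 0 := by
  obtain ⟨r, hr⟩ := Function.ne_iff.mp hv
  obtain ⟨j, hj⟩ := Function.ne_iff.mp hz
  intro h0
  have := congrFun h0 (r, fun _ => j)
  simp only [Pi.zero_apply, Finset.prod_const, mul_eq_zero] at this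
  rcases this with h | h
  · exact hr h
  · exact hj (eq_zero_of_pow_eq_zero h)

variable [FF1 K F]

/-- `(D . P)` for an enumerated divisor -/
theorem pairPt_sum_prim (E : EmbData K F) {k : ℕ} (A : Fin k → Place K F) (P : Place K F) :
    pairPt E (∑ i, prim (A i)) P = ∑ i, hD E (A i) P := by
  classical
  unfold pairPt
  have h := Finsupp.sum_finsetSum_index (s := (Finset.univ : Finset (Fin k)))
    (g := fun i => prim (A i)) (h := fun B (n : ℤ) => (n : ℝ) * hD E B P)
    (fun _ => by simp) (fun _ _ _ => by push_cast; ring)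
  rw [← h]
  refine Finset.sum_congr rfl fun i _ => ?_
  unfold prim
  rw [Finsupp.sum_single_index (by simp)]
  simp

/-- a zero of `a` is a point where `⟨a, pt ·⟩` vanishes -/
theorem dot_pt_eq_zero_of_mem (E : EmbData K F) {a : Fin (E.r + 1) → K} (ha : a ≠ 0)
    {k : ℕ} (A : Fin k → Place K F) (hA : ∑ l, prim (A l) ≤ E.Z a) (i : Fin k) :
    dot a (E.pt (A i)) = 0 := by
  classical
  rw [E.pt_spec (A i) a ha]
  have h1 : (1 : ℤ) ≤ (∑ l, prim (A l) : Divisor K F) (A i) := by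
    rw [Finsupp.finsetSum_apply]
    have h2 : ∀ l ∈ (Finset.univ : Finset (Fin k)), (0 : ℤ) ≤ (prim (A l) : Divisor K F) (A i) := by
      intro l _
      unfold prim
      rw [Finsupp.single_apply]
      split_ifs <;> simp
    have h3 := Finset.single_le_sum h2 (Finset.mem_univ i)
    have h4 : (prim (A i) : Divisor K F) (A i) = 1 := by
      unfold prim; simp
    rw [h4] at h3
    exact h3
  have h5 := Finsupp.le_def.mp hA (A i)
  change 0 < (E.Z a) (A i)
  omega

/-- **(E3)** for `m ≥ 4g + 1`, from the leaves. -/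
theorem e3 [Algebra.IsAlgebraic ℚ K] (E : EmbData K F) (hE : Big E) (hL : Leaves E) :
    E3Statement E E := by
  classical
  have hm1 : 1 ≤ E.m := by unfold Big at hE; omega
  obtain ⟨C₁, L₁, Q₁, -, -, hup⟩ := core_up E hE hL E.m hm1 Unit
  obtain ⟨C₂, L₂, Q₂, -, -, hlow⟩ := core_low E hE hL
  refine ⟨max C₁ C₂, fun a P ha hP => ?_⟩
  obtain ⟨A, hA⟩ := hL.enum (E.Z a) (E.Z_nonneg a) E.m (E.degree_Z ha)
  have hAle : ∑ l, prim (A l) ≤ E.Z a := le_of_eq hA.symm
  have hne : ∀ i, A i ≠ P := by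
    intro i h
    apply hP
    rw [← h]
    exact dot_pt_eq_zero_of_mem E ha A hAle i
  have hw : ∀ i, wedge (E.pt (A i)) (E.pt P) ≠ 0 := fun i => hL.pt.2.2.1 _ _ (hne i)
  set ψu := betaCol (fun i => E.pt (A i)) (fun _ => E.pt P) with hψu
  set ψw := wCol (e := E.m - 1) (fun _ : Unit => a) (E.pt P) with hψw
  have hhu : ht ψu = ∑ i, ht (wedge (E.pt (A i)) (E.pt P)) := hL.a6 _ _ _ _ hw
  have hv0 : (fun _ : Unit => dot a (E.pt P)) ≠ 0 := fun h => hP (congrFun h ())
  have hhw : ht ψw = ((E.m - 1 : ℕ) : ℝ) * ht (E.pt P) := by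
    have h := hL.a7 (E.r + 1) (E.m - 1) Unit (fun _ : Unit => dot a (E.pt P)) (E.pt P) hv0
      (hL.pt.1 P)
    rw [ht_const hP, zero_add] at h
    exact h
  have hψu0 : ψu ≠ 0 := betaCol_ne_zero _ _ hw
  have hψw0 : ψw ≠ 0 := tensorPow_ne_zero (fun _ : Unit => dot a (E.pt P)) (E.pt P) hv0
    (hL.pt.1 P)
  have hW : ∀ r : Unit, (fun _ : Unit => a) r ≠ 0 → ∑ l, prim (A l) ≤ E.Z ((fun _ : Unit => a) r) :=
    fun _ _ => hAle
  have r1 := hL.rank E.m A Unit (fun _ : Unit => a) hm1 hW (Fin L₁) (fun t => E.pt (Q₁ t))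
    (E.pt P) (fun j => hL.pt.2.1 _) (hL.pt.2.1 P)
  have r2 := hL.rank E.m A Unit (fun _ : Unit => a) hm1 hW (Fin L₂) (fun t => E.pt (Q₂ t))
    (E.pt P) (fun j => hL.pt.2.1 _) (hL.pt.2.1 P)
  have u1 := hup A (fun _ : Unit => a) ψu ψw r1 hψw0
  have l1 := hlow a A ψu ψw ha r2 hψu0
  rw [ht_unitProd] at u1
  rw [hA, pairPt_sum_prim]
  have hsum : ∑ i, hD E (A i) P = ∑ i, ht (E.pt (A i)) + (E.m : ℝ) * ht (E.pt P) - ht ψu := by
    unfold hD
    rw [Finset.sum_sub_distrib, Finset.sum_add_distrib, hhu]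
    simp
  have hc : ((E.m - 1 : ℕ) : ℝ) = (E.m : ℝ) - 1 := by
    rw [Nat.cast_sub hm1]; simp
  rw [hsum, abs_le]
  rw [hhw, hc] at u1 l1
  constructor
  · linarith [le_max_right C₁ C₂]
  · linarith [le_max_left C₁ C₂]

end Fermat.Agent.S17.Wall
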