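import Fermat.Agent.S17.H710.Wall.E3

/-!
# S17 / tower H — the WALL: `(ADJ)` from the leaves (helper710).  Sorry-free.
-/

set_option autoImplicit false

noncomputable section

namespace Fermat.Agent.S17.Wall

open AlgebraicCurve MvPolynomial
open Fermat.Agent.Lib.RR Fermat.Agent.S17.HWall Fermat.Agent.S17.H710
open Fermat.Agent.S17.HContract

variable {K F : Type*} [Field K] [CharZero K] [Field F] [Algebra K F]

omit [CharZero K] in
theorem wedge_self {n : ℕ} (y : Fin n → K) : wedge y y = 0 := by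
  funext p
  simp [wedge, mul_comm]

omit [CharZero K] in
/-- the jet of `β_s` when the slot `i₀` is the base point -/
theorem betaJet_eq_betaCol {n d : ℕ} (u : Fin d → Fin n → K) (z z' : Fin n → K) (i₀ : Fin d)
    (h : u i₀ = z) :
    betaJet u z z' = betaCol u (Function.update (fun _ => z) i₀ z') := by
  classical
  funext s
  unfold betaJet betaCol
  rw [Finset.sum_eq_single i₀]
  · rw [← Finset.mul_prod_erase Finset.univ _ (Finset.mem_univ i₀)]
    congr 1
    · simp
    · refine Finset.prod_congr rfl fun i hi => ?_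
      rw [Function.update_of_ne (Finset.ne_of_mem_erase hi)]
  · intro l _ hl
    have : ∏ i ∈ Finset.univ.erase l, wedge (u i) z (s i) = 0 := by
      refine Finset.prod_eq_zero (i := i₀) (Finset.mem_erase.mpr ⟨hl.symm, Finset.mem_univ _⟩) ?_
      rw [h, wedge_self]
      rfl
    rw [this, mul_zero]
  · intro h'
    exact absurd (Finset.mem_univ i₀) h'

omit [CharZero K] in
/-- the jet of `w X^α` at a zero of `w` -/
theorem wJet_eq {n e : ℕ} {ρ : Type*} (W : ρ → Fin n → K) (z z' : Fin n → K)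
    (h : ∀ r, dot (W r) z = 0) :
    wJet (e := e) W z z' = fun t => dot (W t.1) z' * ∏ k, z (t.2 k) := by
  funext t
  unfold wJet
  rw [h t.1, zero_mul, add_zero]

variable [FF1 K F]

open Classical in
omit [CharZero K] in
/-- multiplicity of `P` in an enumerated divisor -/
theorem sum_prim_apply {k : ℕ} (A : Fin k → Place K F) (P : Place K F) :
    (∑ i, prim (A i) : Divisor K F) P = ((Finset.univ.filter fun i => A i = P).card : ℤ) := by
  rw [Finsupp.finsetSum_apply]
  unfold prim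
  simp only [Finsupp.single_apply]
  rw [Finset.sum_ite, Finset.sum_const_zero, add_zero, Finset.sum_const]
  simp

/-- `(D - P . P)` for an enumerated divisor with `D(P) = 1` -/
theorem pairPt_erase (E : EmbData K F) {k : ℕ} (A : Fin k → Place K F) (P : Place K F)
    (i₀ : Fin k) (hi₀ : A i₀ = P) (huniq : ∀ i, A i = P → i = i₀) :
    pairPt E ((∑ i, prim (A i) : Divisor K F).erase P) P =
      ∑ i ∈ Finset.univ.erase i₀, hD E (A i) P := by
  classical
  have h1 : (∑ i, prim (A i) : Divisor K F) P = 1 := by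
    rw [sum_prim_apply]
    have : (Finset.univ.filter fun i => A i = P) = {i₀} := by
      ext i
      simp only [Finset.mem_filter, Finset.mem_univ, true_and, Finset.mem_singleton]
      exact ⟨huniq i, fun h => h ▸ hi₀⟩
    rw [this]; simp
  have hmem : P ∈ (∑ i, prim (A i) : Divisor K F).support := by
    rw [Finsupp.mem_support_iff, h1]; exact one_ne_zero
  have h2 := Finsupp.add_sum_erase (∑ i, prim (A i) : Divisor K F) P
    (fun B (n : ℤ) => (n : ℝ) * hD E B P) hmem
  have h3 := pairPt_sum_prim E A P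
  unfold pairPt at h3 ⊢
  rw [h3, h1] at h2
  have h4 := Finset.add_sum_erase Finset.univ (fun i => hD E (A i) P) (Finset.mem_univ i₀)
  rw [hi₀] at h4
  simp only [Int.cast_one, one_mul] at h2
  linarith

/-- **(ADJ)** for `m ≥ 4g + 1`, from the leaves. -/
theorem adj [Algebra.IsAlgebraic ℚ K] (E : EmbData K F) (hE : Big E) (hL : Leaves E) :
    ADJStatement E E := by
  classical
  have hm1 : 1 ≤ E.m := by unfold Big at hE; omega
  obtain ⟨C₁, L₁, Q₁, -, -, hup⟩ := core_up E hE hL E.m hm1 Unit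
  obtain ⟨C₂, L₂, Q₂, -, -, hlow⟩ := core_low E hE hL
  refine ⟨max C₁ C₂, fun a P ha hP => ?_⟩
  obtain ⟨A, hA⟩ := hL.enum (E.Z a) (E.Z_nonneg a) E.m (E.degree_Z ha)
  have hAle : ∑ l, prim (A l) ≤ E.Z a := le_of_eq hA.symm
  -- the unique index of `P`
  have hcard : ((Finset.univ.filter fun i => A i = P).card : ℤ) = 1 := by
    rw [← sum_prim_apply, ← hA, hP]
  have hcard' : (Finset.univ.filter fun i => A i = P).card = 1 := by exact_mod_cast hcard
  obtain ⟨i₀, hi₀s⟩ := Finset.card_eq_one.mp hcard'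
  have hi₀ : A i₀ = P := by
    have : i₀ ∈ Finset.univ.filter fun i => A i = P := by rw [hi₀s]; simp
    exact (Finset.mem_filter.mp this).2
  have huniq : ∀ i, A i = P → i = i₀ := by
    intro i hi
    have : i ∈ Finset.univ.filter fun i => A i = P := Finset.mem_filter.mpr ⟨Finset.mem_univ _, hi⟩
    rw [hi₀s] at this
    exact Finset.mem_singleton.mp this
  -- `a` vanishes at `pt P`, not at `tn P`
  have hdot : dot a (E.pt P) = 0 := by
    rw [← hi₀]; exact dot_pt_eq_zero_of_mem E ha A hAle i₀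
  have htn : dot a (E.tn P) ≠ 0 := by
    intro h
    have := (E.tn_spec P a ha).mp ⟨hdot, h⟩
    change 2 ≤ (E.Z a) P at this
    omega
  -- the jet columns
  set z : Fin E.m → Fin (E.r + 1) → K := Function.update (fun _ => E.pt P) i₀ (E.tn P) with hz
  have hju : betaJet (fun i => E.pt (A i)) (E.pt P) (E.tn P) = betaCol (fun i => E.pt (A i)) z :=
    betaJet_eq_betaCol _ _ _ i₀ (by rw [hi₀])
  have hjw : wJet (e := E.m - 1) (fun _ : Unit => a) (E.pt P) (E.tn P) =
      fun t => (fun _ : Unit => dot a (E.tn P)) t.1 * ∏ k, E.pt P (t.2 k) :=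
    wJet_eq _ _ _ (fun _ => hdot)
  have hw : ∀ i, wedge (E.pt (A i)) (z i) ≠ 0 := by
    intro i
    by_cases h : i = i₀
    · subst h
      rw [hz, Function.update_self, hi₀]
      exact hL.pt.2.2.2 P
    · rw [hz, Function.update_of_ne h]
      exact hL.pt.2.2.1 _ _ (fun h' => h (huniq i h'))
  have hhu : ht (betaCol (fun i => E.pt (A i)) z) = ∑ i, ht (wedge (E.pt (A i)) (z i)) :=
    hL.a6 _ _ _ _ hw
  have hv0 : (fun _ : Unit => dot a (E.tn P)) ≠ 0 := fun h => htn (congrFun h ())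
  have hhw : ht (fun t : Unit × (Fin (E.m - 1) → Fin (E.r + 1)) =>
      (fun _ : Unit => dot a (E.tn P)) t.1 * ∏ k, E.pt P (t.2 k)) =
      ((E.m - 1 : ℕ) : ℝ) * ht (E.pt P) := by
    have h := hL.a7 (E.r + 1) (E.m - 1) Unit (fun _ : Unit => dot a (E.tn P)) (E.pt P) hv0
      (hL.pt.1 P)
    rw [ht_const htn, zero_add] at h
    exact h
  have hψu0 : betaCol (fun i => E.pt (A i)) z ≠ 0 := betaCol_ne_zero _ _ hw
  have hψw0 : (fun t : Unit × (Fin (E.m - 1) → Fin (E.r + 1)) =>
      (fun _ : Unit => dot a (E.tn P)) t.1 * ∏ k, E.pt P (t.2 k)) ≠ 0 :=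
    tensorPow_ne_zero (fun _ : Unit => dot a (E.tn P)) (E.pt P) hv0 (hL.pt.1 P)
  have hW : ∀ r : Unit, (fun _ : Unit => a) r ≠ 0 →
      ∑ l, prim (A l) ≤ E.Z ((fun _ : Unit => a) r) := fun _ _ => hAle
  have r1 := hL.rankJet E.m A Unit (fun _ : Unit => a) hm1 hW (Fin L₁) (fun t => E.pt (Q₁ t))
    P (fun j => hL.pt.2.1 _)
  have r2 := hL.rankJet E.m A Unit (fun _ : Unit => a) hm1 hW (Fin L₂) (fun t => E.pt (Q₂ t))
    P (fun j => hL.pt.2.1 _)
  rw [hju, hjw] at r1 r2
  have u1 := hup A (fun _ : Unit => a) _ _ r1 hψw0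
  have l1 := hlow a A _ _ ha r2 hψu0
  rw [ht_unitProd] at u1
  rw [hhu, hhw] at u1 l1
  -- bookkeeping
  rw [hA, pairPt_erase E A P i₀ hi₀ huniq]
  have hs1 := Finset.add_sum_erase Finset.univ (fun i => ht (E.pt (A i))) (Finset.mem_univ i₀)
  have hs2 := Finset.add_sum_erase Finset.univ (fun i => ht (wedge (E.pt (A i)) (z i)))
    (Finset.mem_univ i₀)
  have hs3 : ∑ i ∈ Finset.univ.erase i₀, ht (wedge (E.pt (A i)) (z i)) =
      ∑ i ∈ Finset.univ.erase i₀, ht (wedge (E.pt (A i)) (E.pt P)) := by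
    refine Finset.sum_congr rfl fun i hi => ?_
    rw [hz, Function.update_of_ne (Finset.ne_of_mem_erase hi)]
  have hs4 : ht (wedge (E.pt (A i₀)) (z i₀)) = ht (wedge (E.pt P) (E.tn P)) := by
    rw [hz, Function.update_self, hi₀]
  have hsum : ∑ i ∈ Finset.univ.erase i₀, hD E (A i) P =
      ∑ i ∈ Finset.univ.erase i₀, ht (E.pt (A i)) +
        ((E.m - 1 : ℕ) : ℝ) * ht (E.pt P) -
        ∑ i ∈ Finset.univ.erase i₀, ht (wedge (E.pt (A i)) (E.pt P)) := by
    unfold hD
    rw [Finset.sum_sub_distrib, Finset.sum_add_distrib]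
    simp [Finset.card_erase_of_mem]
  rw [hi₀] at hs1
  rw [hs3, hs4] at hs2
  rw [hsum, abs_le]
  unfold kap
  constructor
  · linarith [le_max_right C₁ C₂]
  · linarith [le_max_left C₁ C₂]

end Fermat.Agent.S17.Wall
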