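import Fermat.Agent.S17.H710.Wall.Defs
import Fermat.Agent.S17.H380.AbsSegre

/-!
# S17 / tower H — the WALL: the two core inequalities (helper710)

`core_up`, `core_low` : assembly of the Cramer/Nullstellensatz argument from the frozen leaves
of `Wall/Defs.lean` (hypotheses).  Sorry-free.
-/

set_option autoImplicit false

noncomputable section

namespace Fermat.Agent.S17.Wall

open AlgebraicCurve MvPolynomial
open Fermat.Agent.Lib.RR Fermat.Agent.S17.HWall Fermat.Agent.S17.H710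
open Fermat.Agent.S17.HContract

variable {K F : Type*} [Field K] [Field F] [Algebra K F]

/-! ## small glue -/

theorem span_range_stack_swap {σ τ c : Type*} (U : σ → c → K) (ψu : σ → K) (W : τ → c → K)
    (ψw : τ → K) :
    Submodule.span K (Set.range (stack U ψu W ψw)) =
      Submodule.span K (Set.range (stack W ψw U ψu)) := by
  unfold stack
  rw [Set.Sum.elim_range, Set.Sum.elim_range, Set.union_comm]

theorem minors_ne_zero_iff {σ c : Type*} (κ : ℕ) (U : σ → c → K) :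
    minors κ U ≠ 0 ↔ ∃ j, minors κ U j ≠ 0 := Function.ne_iff

variable [FF1 K F]

theorem kapN_pos (E : EmbData K F) (hE : Big E) {k : ℕ} (hk : 1 ≤ k) : 1 ≤ kapN E k := by
  unfold kapN
  unfold Big at hE
  have h1 : k * 1 ≤ k * E.m := Nat.mul_le_mul_left k (by omega)
  have h2 : 1 * (E.m - 1) ≤ k * (E.m - 1) := Nat.mul_le_mul_right _ hk
  have h3 : k * (E.m - 1) = k * E.m - k := by
    rw [Nat.mul_sub, mul_one]
  omega

/-- the cone of the relations of `E.x`, as a set of homogeneous equations -/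
def relSet (E : EmbData K F) : Set (MvPolynomial (Fin (E.r + 1)) K) :=
  {G | ∃ e : ℕ, G.IsHomogeneous e ∧ aeval E.x G = 0}

theorem onCone_iff_relSet (E : EmbData K F) (y : Fin (E.r + 1) → K) :
    OnCone E.x y ↔ ∀ G ∈ relSet E, eval y G = 0 := by
  constructor
  · rintro h G ⟨e, hG, h0⟩
    exact h e G hG h0
  · intro h d G hG h0
    exact h G ⟨d, hG, h0⟩

variable [CharZero K]

/-- all leaves used by the assembly of `(E3)`, `(ADJ)`, `(VDM)` -/
structure Leaves (E : EmbData K F) : Prop where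
  a1 : CramerHeightStatement K
  a2 : MinorStatement K
  a3 : MultislotStatement K
  a4 : HtBetaMatStatement K
  a5 : HtWMatStatement K
  a6 : HtBetaColStatement K
  a7 : HtWColStatement K
  a8 : MinorPolyBetaStatement K
  a9 : MinorPolyAStatement K
  a10 : PluckerStepStatement K
  pt : PtStatement E
  cone : ConeStatement E
  enum : EnumStatement K F
  inf : InfStatement K F
  indep : IndepStatement E
  rank : RankStatement E
  rankJet : RankJetStatement E
  minorBeta : MinorBetaStatement E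
  minorA : MinorAStatement E

/-- **CORE-UP** (`k` slots, a family `W` of forms).  Rows `β_s`, extra rows `w_ρ X^α`:
`Σ h(Aᵢ) + h(ψw) ≤ h(W) + h(ψu) + C` for ANY extra column `(ψu, ψw)` satisfying the rank
condition. -/
theorem core_up (E : EmbData K F) (hE : Big E)
    (hL : Leaves E) (k : ℕ) (hk : 1 ≤ k) (ρ : Type) [Fintype ρ] :
    ∃ (C : ℝ) (L : ℕ) (Q : Fin L → Place K F), Function.Injective Q ∧ E.m * E.m < L ∧
      ∀ (A : Fin k → Place K F) (W : ρ → Fin (E.r + 1) → K)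
        (ψu : (Fin k → Fin (E.r + 1) × Fin (E.r + 1)) → K)
        (ψw : ρ × (Fin (k - 1) → Fin (E.r + 1)) → K),
        Module.finrank K (Submodule.span K (Set.range
          (stack (betaMat (fun i => E.pt (A i)) fun t => E.pt (Q t)) ψu
            (wMat W fun t => E.pt (Q t)) ψw))) ≤ kapN E k →
        ψw ≠ 0 →
        ∑ i, ht (E.pt (A i)) + ht ψw ≤
          ht (fun q : ρ × Fin (E.r + 1) => W q.1 q.2) + ht ψu + C := by
  classical
  obtain ⟨L, hLdef⟩ : ∃ L, L = k * E.m + E.m * E.m + 1 := ⟨_, rfl⟩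
  obtain ⟨Q, hQ⟩ := hL.inf L
  set y : Fin L → Fin (E.r + 1) → K := fun t => E.pt (Q t) with hy
  set κ := kapN E k with hκ
  have hκ1 : 1 ≤ κ := kapN_pos E hE hk
  obtain ⟨p, hpM, hpE⟩ := hL.a8 (E.r + 1) k (Fin L) y κ
  -- minors nonzero at places
  have hmin : ∀ A : Fin k → Place K F, minors κ (betaMat (fun i => E.pt (A i)) y) ≠ 0 := by
    intro A
    exact hL.a2 _ _ κ _ (hL.minorBeta k L Q hk hQ (by omega) A)
  -- no common zero
  have h0 : ∀ u : Fin k → Fin (E.r + 1) → K, (∀ l, u l ≠ 0) →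
      (∀ l, ∀ G ∈ relSet E, eval (u l) G = 0) →
      ∃ j, eval (fun q : Fin k × Fin (E.r + 1) => u q.1 q.2) (p j) ≠ 0 := by
    intro u hu0 hurel
    have hc : ∀ l, ∃ (P : Place K F) (c : K), c ≠ 0 ∧ u l = c • E.pt P := fun l =>
      hL.cone (u l) (hu0 l) ((onCone_iff_relSet E (u l)).mpr (hurel l))
    choose A c hc0 huA using hc
    obtain ⟨j, hj⟩ := (minors_ne_zero_iff κ _).mp (hmin A)
    refine ⟨j, ?_⟩
    have : (fun q : Fin k × Fin (E.r + 1) => u q.1 q.2) =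
        fun q => c q.1 * E.pt (A q.1) q.2 := by
      funext q; rw [huA q.1]; rfl
    have h2 : eval (fun q : Fin k × Fin (E.r + 1) => E.pt (A q.1) q.2) (p j) =
        minors κ (betaMat (fun i => E.pt (A i)) y) j := hpE (fun i => E.pt (A i)) j
    rw [this, hpM j (fun i => E.pt (A i)) c, h2]
    exact mul_ne_zero (Finset.prod_ne_zero_iff.mpr fun l _ => pow_ne_zero _ (hc0 l)) hj
  obtain ⟨C₃, hC₃⟩ := hL.a3 (E.r + 1) k _ (relSet E)
    (fun G hG => ⟨hG.choose, hG.choose_spec.1⟩) p κ hpM h0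
  obtain ⟨C₁, hC₁⟩ := hL.a1 κ (Fin k → Fin (E.r + 1) × Fin (E.r + 1))
    (ρ × (Fin (k - 1) → Fin (E.r + 1))) (Fin L)
  obtain ⟨C₄, hC₄⟩ := hL.a4 (E.r + 1) k (Fin L) y
  obtain ⟨C₅, hC₅⟩ := hL.a5 (E.r + 1) (k - 1) ρ (Fin L) y
  refine ⟨C₁ + C₃ + C₅ + ((κ - 1 : ℕ) : ℝ) * C₄, L, Q, hQ, by omega, ?_⟩
  intro A W ψu ψw hrank hψw
  have e1 := hC₁ _ ψu _ ψw hrank (hmin A) hψw
  have e3 := hC₃ (fun i => E.pt (A i)) (fun l => hL.pt.1 (A l))
    (fun l => (onCone_iff_relSet E _).mp (hL.pt.2.1 (A l)))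
  have e3' : (fun j => eval (fun q : Fin k × Fin (E.r + 1) => E.pt (A q.1) q.2) (p j)) =
      minors κ (betaMat (fun i => E.pt (A i)) y) :=
    funext fun j => hpE (fun i => E.pt (A i)) j
  rw [e3'] at e3
  have e4 := hC₄ (fun i => E.pt (A i))
  have e5 := hC₅ W
  have e4' := mul_le_mul_of_nonneg_left e4 (Nat.cast_nonneg (α := ℝ) (κ - 1))
  have hc : ((κ - 1 : ℕ) : ℝ) = (κ : ℝ) - 1 := by
    rw [Nat.cast_sub hκ1]; simp
  rw [hc] at e4' e1 ⊢
  nlinarith [e1, e3, e4', e5]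

/-- **CORE-LOW** (`k = m`, one form `a`).  Rows `a X^α`, extra rows `β_s`:
`h(a) + h(ψu) ≤ Σ h(Aᵢ) + h(ψw) + C`. -/
theorem core_low (E : EmbData K F) (hE : Big E) (hL : Leaves E) :
    ∃ (C : ℝ) (L : ℕ) (Q : Fin L → Place K F), Function.Injective Q ∧ E.m * E.m < L ∧
      ∀ (a : Fin (E.r + 1) → K) (A : Fin E.m → Place K F)
        (ψu : (Fin E.m → Fin (E.r + 1) × Fin (E.r + 1)) → K)
        (ψw : Unit × (Fin (E.m - 1) → Fin (E.r + 1)) → K),
        a ≠ 0 →
        Module.finrank K (Submodule.span K (Set.range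
          (stack (betaMat (fun i => E.pt (A i)) fun t => E.pt (Q t)) ψu
            (wMat (fun _ : Unit => a) fun t => E.pt (Q t)) ψw))) ≤ kapN E E.m →
        ψu ≠ 0 →
        ht a + ht ψu ≤ ∑ i, ht (E.pt (A i)) + ht ψw + C := by
  classical
  have hm1 : 1 ≤ E.m := by unfold Big at hE; omega
  obtain ⟨L, hLdef⟩ : ∃ L, L = E.m * E.m + 1 := ⟨_, rfl⟩
  obtain ⟨Q, hQ⟩ := hL.inf L
  set y : Fin L → Fin (E.r + 1) → K := fun t => E.pt (Q t) with hy
  set κ := kapN E E.m with hκ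
  have hκ1 : 1 ≤ κ := kapN_pos E hE hm1
  obtain ⟨p, hpM, hpE⟩ := hL.a9 (E.r + 1) (E.m - 1) (Fin L) y κ
  have hmin : ∀ a : Fin (E.r + 1) → K, a ≠ 0 →
      minors κ (wMat (e := E.m - 1) (fun _ : Unit => a) y) ≠ 0 := by
    intro a ha
    exact hL.a2 _ _ κ _ (hL.minorA L Q hQ (by omega) a ha)
  have hev : ∀ u : Fin 1 → Fin (E.r + 1) → K,
      (fun q : Fin 1 × Fin (E.r + 1) => u q.1 q.2) = fun q => u 0 q.2 := by
    intro u; funext q; rw [Subsingleton.elim q.1 0]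
  have h0 : ∀ u : Fin 1 → Fin (E.r + 1) → K, (∀ l, u l ≠ 0) →
      (∀ l, ∀ G ∈ (∅ : Set (MvPolynomial (Fin (E.r + 1)) K)), eval (u l) G = 0) →
      ∃ j, eval (fun q : Fin 1 × Fin (E.r + 1) => u q.1 q.2) (p j) ≠ 0 := by
    intro u hu0 _
    obtain ⟨j, hj⟩ := (minors_ne_zero_iff κ _).mp (hmin (u 0) (hu0 0))
    refine ⟨j, ?_⟩
    rw [hev u, hpE]
    exact hj
  obtain ⟨C₃, hC₃⟩ := hL.a3 (E.r + 1) 1 _ (∅ : Set (MvPolynomial (Fin (E.r + 1)) K))
    (fun G hG => absurd hG (Set.notMem_empty G)) p κ hpM h0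
  obtain ⟨C₁, hC₁⟩ := hL.a1 κ (Unit × (Fin (E.m - 1) → Fin (E.r + 1)))
    (Fin E.m → Fin (E.r + 1) × Fin (E.r + 1)) (Fin L)
  obtain ⟨C₄, hC₄⟩ := hL.a4 (E.r + 1) E.m (Fin L) y
  obtain ⟨C₅, hC₅⟩ := hL.a5 (E.r + 1) (E.m - 1) Unit (Fin L) y
  refine ⟨C₁ + C₃ + C₄ + ((κ - 1 : ℕ) : ℝ) * C₅, L, Q, hQ, by omega, ?_⟩
  intro a A ψu ψw ha hrank hψu
  rw [span_range_stack_swap] at hrank
  have e1 := hC₁ _ ψw _ ψu hrank (hmin a ha) hψu
  have e3 := hC₃ (fun _ => a) (fun _ => ha) (fun _ G hG => absurd hG (Set.notMem_empty G))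
  have e3' : (fun j => eval (fun q : Fin 1 × Fin (E.r + 1) => a q.2) (p j)) =
      minors κ (wMat (e := E.m - 1) (fun _ : Unit => a) y) :=
    funext fun j => hpE a j
  rw [e3'] at e3
  simp only [Finset.univ_unique, Finset.sum_const, Finset.card_singleton, one_smul] at e3
  have e4 := hC₄ (fun i => E.pt (A i))
  have e5 := hC₅ (fun _ : Unit => a)
  have e5a : ht (fun q : Unit × Fin (E.r + 1) => a q.2) = ht a := by
    have := Fermat.Agent.S17.H380.absLogHeight_comp_equiv (Equiv.punitProd (Fin (E.r + 1))) a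
    simpa [Function.comp_def] using this
  rw [e5a] at e5
  have e5' := mul_le_mul_of_nonneg_left e5 (Nat.cast_nonneg (α := ℝ) (κ - 1))
  have hc : ((κ - 1 : ℕ) : ℝ) = (κ : ℝ) - 1 := by
    rw [Nat.cast_sub hκ1]; simp
  rw [hc] at e5' e1 ⊢
  nlinarith [e1, e3, e4, e5']

end Fermat.Agent.S17.Wall
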