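import Fermat.Agent.S17.H710.Wall.Main
import Fermat.Agent.S17.H290.GaussMain
import Fermat.Agent.S17.H320.WeilOfWHM

/-!
# S17 / tower H — THE WALL, COMPLETE (architect helper710).  Sorry-free.

`K` algebraically closed and algebraic over `ℚ`, `F / K` a function field with `FF1 K F`,
`E : EmbData K F` with `Big E : 4 g + 1 ≤ E.m`:

* `gaussCan_final E hE : GAUSSCanStatement E` — `(GAUSS)` at the divisor of EVERY nonzero
  Kähler differential (`H290.gaussCan_main` + `H320.weil` + A3 + G-PT);
* `gauss_final E hE : GAUSSStatement E`;
* `contract_final E hE d₀ hd : Contract E E d₀` — the whole contract, UNCONDITIONAL.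
-/

set_option autoImplicit false

noncomputable section

namespace Fermat.Agent.S17.Wall

open AlgebraicCurve
open Fermat.Agent.Lib.RR Fermat.Agent.S17.HWall Fermat.Agent.S17.H710
open Fermat.Agent.S17.HContract

variable {K F : Type*} [Field K] [CharZero K] [Field F] [Algebra K F] [FF1 K F]
variable [IsAlgClosed K] [Algebra.IsAlgebraic ℚ K]

/-- Weil's height machine for fixed families of forms. -/
theorem weil_final (E : EmbData K F) : Fermat.Agent.S17.H290.WeilStatement E :=
  Fermat.Agent.S17.H320.weil E (Fermat.Agent.S17.H740.multislot K)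
    (Fermat.Agent.S17.H440.ptStatement E)

/-- **(GAUSS)** at the divisor of every nonzero Kähler differential. -/
theorem gaussCan_final (E : EmbData K F) (hE : Big E) : GAUSSCanStatement E :=
  Fermat.Agent.S17.H290.gaussCan_main E hE (weil_final E)

/-- **(GAUSS)**. -/
theorem gauss_final (E : EmbData K F) (hE : Big E) : GAUSSStatement E :=
  Fermat.Agent.S17.H290.gauss_main E hE (weil_final E)

/-- **THE WALL**: the contract between TOP and WALL, unconditional. -/
theorem contract_final (E : EmbData K F) (hE : Big E) (d₀ : ℕ)
    (hd : d₀ + 2 * genusR K F ≤ E.m + 1) : Contract E E d₀ :=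
  contract_main E hE (gauss_final E hE) d₀ hd

end Fermat.Agent.S17.Wall
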