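import Fermat.Agent.S17.H710.Wall.Main
import Fermat.Agent.S17.H35.TopLeaves

/-!
# S17 / tower H — WALL ⟹ TOP-GLUE (helper710).  Sorry-free.

For every input `I : Top.TopInput F₀` of TOP-GLUE (`S17/H500/TopData.lean`) the four package
leaves coming from the wall are UNCONDITIONAL:

* `e3Leaf_main I : Top.E3Leaf I`, `bezLeaf_main I : Top.BezLeaf I`,
  `adjLeaf_main I : Top.AdjLeaf I`, `vdmLeaf_main I : Top.VdmLeaf I`;
* `gaussLeaf_main I (hg : Top.GaussPlus I) : Top.GaussLeaf I`.

(`Big I.E` and `d + 2g ≤ m + 1` follow from the numerics `1 ≤ g`, `2g ≤ d`, `4d + 2g ≤ m` of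
`TopInput`; the wall is `S17/H710/Wall/Main.lean`, the summation over divisors is
`S17/H35/TopLeaves.lean`.)
-/

set_option autoImplicit false

noncomputable section

open AlgebraicCurve

namespace Fermat.Agent.S17.Wall

open Fermat.Agent.Lib.RR Fermat.Agent.S17.HWall Fermat.Agent.S17.HContract
open Fermat.Agent.S17.H77 Fermat.Agent.S17.H680 Fermat.Agent.S17.H980 ModularCurve
open Fermat.Agent.S17.H500.Top

variable {F₀ : IntermediateField ℚ (LaurentSeries ℚ)} [FF1 Qb (laurentBaseChange Qb F₀)]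
variable (I : TopInput F₀)

theorem big_of_topInput : Big I.E := by
  unfold Big
  have h1 := I.two_g_le_d
  have h2 := I.four_d_le_m
  have h3 := I.one_le_g
  omega

theorem e3_top : E3Statement I.E I.E := by
  have := isAlgebraic_Qb
  exact e3_main I.E (big_of_topInput I)

theorem adj_top : ADJStatement I.E I.E := by
  have := isAlgebraic_Qb
  exact adj_main I.E (big_of_topInput I)

theorem vdm_top : VDMStatement I.E I.E I.d := by
  have := isAlgebraic_Qb
  refine vdm_main I.E (big_of_topInput I) I.d ?_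
  have h1 := I.two_g_le_d
  have h2 := I.four_d_le_m
  omega

/-- **T-E3**, unconditional. -/
theorem e3Leaf_main : E3Leaf I := Fermat.Agent.S17.H35.e3Leaf I (e3_top I)

/-- **T-BEZ**, unconditional. -/
theorem bezLeaf_main : BezLeaf I := Fermat.Agent.S17.H35.bezLeaf I (e3_top I)

/-- **T-ADJ**, unconditional. -/
theorem adjLeaf_main : AdjLeaf I := Fermat.Agent.S17.H35.adjLeaf I (adj_top I)

/-- **T-VDM**, unconditional. -/
theorem vdmLeaf_main : VdmLeaf I := Fermat.Agent.S17.H35.vdmLeaf I I.d le_rfl (vdm_top I)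

/-- **T-GAUSS** from `(GAUSS⁺)`. -/
theorem gaussLeaf_main (hg : GaussPlus I) : GaussLeaf I :=
  Fermat.Agent.S17.H35.gaussLeaf I hg (e3_top I)

end Fermat.Agent.S17.Wall
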