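import Fermat.Agent.S17.H710.Wall.Adj

/-!
# S17 / tower H — the WALL: `(VDM)` from the leaves (helper710).  Sorry-free.
-/

set_option autoImplicit false

noncomputable section

namespace Fermat.Agent.S17.Wall

open AlgebraicCurve MvPolynomial
open Fermat.Agent.Lib.RR Fermat.Agent.S17.HWall Fermat.Agent.S17.H710
open Fermat.Agent.S17.HContract

variable {K F : Type*} [Field K] [CharZero K] [Field F] [Algebra K F]

/-- embeddings of `Fin 1` are points -/
def embFinOne (n : ℕ) : (Fin 1 ↪ Fin n) ≃ Fin n where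
  toFun e := e 0
  invFun j := ⟨fun _ => j, fun a b _ => Subsingleton.elim a b⟩
  left_inv e := by
    ext i
    rw [Subsingleton.elim i 0]
    rfl
  right_inv j := rfl

theorem plucker_one {n : ℕ} (y : Fin 1 → Fin n → K) :
    plucker y = (y 0) ∘ (embFinOne n) := by
  funext e
  unfold plucker
  rw [Matrix.det_fin_one]
  rfl

theorem plucker_zero {n : ℕ} (y : Fin 0 → Fin n → K) : plucker y = 1 := by
  funext e
  unfold plucker
  rw [Matrix.det_fin_zero]
  rfl

omit [CharZero K] in
theorem sum_sum_lt_succ {d : ℕ} (f : Fin (d + 1) → Fin (d + 1) → ℝ) :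
    (∑ i, ∑ j, if i < j then f i j else 0) =
      (∑ i : Fin d, ∑ j : Fin d, if i < j then f i.castSucc j.castSucc else 0) +
        ∑ i : Fin d, f i.castSucc (Fin.last d) := by
  rw [Fin.sum_univ_castSucc]
  have h1 : (∑ j, if Fin.last d < j then f (Fin.last d) j else 0) = 0 := by
    refine Finset.sum_eq_zero fun j _ => ?_
    rw [if_neg (not_lt.mpr (Fin.le_last j))]
  rw [h1, add_zero, ← Finset.sum_add_distrib]
  refine Finset.sum_congr rfl fun i _ => ?_
  rw [Fin.sum_univ_castSucc (f := fun j => if i.castSucc < j then f i.castSucc j else 0)]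
  rw [if_pos (Fin.castSucc_lt_last i)]
  congr 1

variable [FF1 K F]

omit [CharZero K] in
/-- forms vanishing at distinct points vanish on their sum -/
theorem sum_prim_le_Z (E : EmbData K F) {a : Fin (E.r + 1) → K} (ha : a ≠ 0) {k : ℕ}
    (A : Fin k → Place K F) (hA : Function.Injective A) (h : ∀ l, dot a (E.pt (A l)) = 0) :
    ∑ l, prim (A l) ≤ E.Z a := by
  classical
  rw [Finsupp.le_def]
  intro B
  rw [sum_prim_apply]
  have hZ := Finsupp.le_def.mp (E.Z_nonneg a) B
  simp only [Finsupp.coe_zero, Pi.zero_apply] at hZ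
  by_cases hB : ∃ l, A l = B
  · obtain ⟨l, rfl⟩ := hB
    have hc : (Finset.univ.filter fun i => A i = A l).card ≤ 1 := by
      rw [Finset.card_le_one]
      intro i hi j hj
      exact hA ((Finset.mem_filter.mp hi).2.trans (Finset.mem_filter.mp hj).2.symm)
    have hpos : 0 < (E.Z a) (A l) := (E.pt_spec (A l) a ha).mp (h l)
    have : ((Finset.univ.filter fun i => A i = A l).card : ℤ) ≤ 1 := by exact_mod_cast hc
    omega
  · have : (Finset.univ.filter fun i => A i = B) = ∅ := by
      ext i
      simp only [Finset.mem_filter, Finset.mem_univ, true_and, Finset.notMem_empty, iff_false]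
      exact fun hi => hB ⟨i, hi⟩
    rw [this]
    simpa using hZ

/-- the induction for `(VDM)` -/
theorem vdm_aux [Algebra.IsAlgebraic ℚ K] (E : EmbData K F) (hE : Big E) (hL : Leaves E)
    (d₀ : ℕ) (hd₀ : d₀ + 2 * genusR K F ≤ E.m + 1) :
    ∀ d : ℕ, d ≤ d₀ → ∃ C : ℝ, ∀ P : Fin d → Place K F, Function.Injective P →
      ht (plucker fun i => E.pt (P i)) ≤
        (∑ i, ht (E.pt (P i))) - (∑ i, ∑ j, if i < j then hD E (P i) (P j) else 0) + C := by
  classical
  intro d
  induction d with
  | zero =>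
    intro _
    refine ⟨0, fun P _ => ?_⟩
    rw [plucker_zero, ht_one]
    simp
  | succ d ih =>
    intro hd
    obtain ⟨C₀, hC₀⟩ := ih (by omega)
    rcases Nat.eq_zero_or_pos d with hd0 | hdpos
    · subst hd0
      refine ⟨0, fun P _ => ?_⟩
      rw [plucker_one]
      have := Fermat.Agent.S17.H380.absLogHeight_comp_equiv (embFinOne (E.r + 1)) (E.pt (P 0))
      rw [ht, this]
      simp
    · obtain ⟨C₁₀, hC₁₀⟩ := hL.a10 (E.r + 1) d
      obtain ⟨C, L, Q, -, -, hup⟩ := core_up E hE hL d hdpos (Fin (d + 1) ↪ Fin (E.r + 1))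
      refine ⟨C₀ + C₁₀ + C, fun P hP => ?_⟩
      set A : Fin d → Place K F := fun i => P i.castSucc with hA
      have hAinj : Function.Injective A := fun i j h => Fin.castSucc_injective _ (hP h)
      set z := E.pt (P (Fin.last d)) with hz
      obtain ⟨W, hW1, hW2, hW3⟩ := hC₁₀ (fun i => E.pt (A i))
      have hsnoc : (Fin.snoc (fun i => E.pt (A i)) z : Fin (d + 1) → Fin (E.r + 1) → K) =
          fun i => E.pt (P i) := by
        funext i
        refine Fin.lastCases ?_ (fun j => ?_) i
        · simp [hz]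
        · simp [hA]
      have hv : (fun e => dot (W e) z) = plucker fun i => E.pt (P i) := by
        funext e
        rw [hW2 z e, hsnoc]
      have hindep : (plucker fun i => E.pt (P i)) ≠ 0 := hL.indep (d + 1) P (by omega) hP
      have hne : ∀ i, A i ≠ P (Fin.last d) := fun i h =>
        absurd (hP h) (Fin.castSucc_lt_last i).ne
      have hw : ∀ i, wedge (E.pt (A i)) ((fun _ : Fin d => z) i) ≠ 0 :=
        fun i => hL.pt.2.2.1 _ _ (hne i)
      have hWZ : ∀ e, W e ≠ 0 → ∑ l, prim (A l) ≤ E.Z (W e) :=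
        fun e he => sum_prim_le_Z E he A hAinj (fun l => hW1 e l)
      have hrank := hL.rank d A _ W hdpos hWZ (Fin L) (fun t => E.pt (Q t)) z
        (fun j => hL.pt.2.1 _) (hL.pt.2.1 _)
      have hψw0 : wCol (e := d - 1) W z ≠ 0 := by
        have := tensorPow_ne_zero (e := d - 1) (fun e => dot (W e) z) z (by rw [hv]; exact hindep)
          (hL.pt.1 _)
        exact this
      have u1 := hup A W _ _ hrank hψw0
      have hhu : ht (betaCol (fun i => E.pt (A i)) fun _ => z) =
          ∑ i, ht (wedge (E.pt (A i)) z) := hL.a6 _ _ _ _ hw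
      have hhw : ht (wCol (e := d - 1) W z) =
          ht (plucker fun i => E.pt (P i)) + ((d - 1 : ℕ) : ℝ) * ht z := by
        have := hL.a7 (E.r + 1) (d - 1) _ (fun e => dot (W e) z) z (by rw [hv]; exact hindep)
          (hL.pt.1 _)
        rw [hv] at this
        exact this
      rw [hhu, hhw] at u1
      have ih' := hC₀ A hAinj
      have hc : ((d - 1 : ℕ) : ℝ) = (d : ℝ) - 1 := by
        rw [Nat.cast_sub hdpos]; simp
      rw [hc] at u1
      rw [sum_sum_lt_succ, Fin.sum_univ_castSucc]
      have hsumD : ∑ i : Fin d, hD E (P i.castSucc) (P (Fin.last d)) =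
          ∑ i, ht (E.pt (A i)) + (d : ℝ) * ht z - ∑ i, ht (wedge (E.pt (A i)) z) := by
        unfold hD
        rw [Finset.sum_sub_distrib, Finset.sum_add_distrib]
        simp [hA, hz]
      rw [hsumD]
      linarith

/-- **(VDM)** for `d₀ ≤ m - 2g + 1`, from the leaves. -/
theorem vdm [Algebra.IsAlgebraic ℚ K] (E : EmbData K F) (hE : Big E) (hL : Leaves E)
    (d₀ : ℕ) (hd₀ : d₀ + 2 * genusR K F ≤ E.m + 1) : VDMStatement E E d₀ := by
  classical
  have h : ∀ d : Fin (d₀ + 1), ∃ C : ℝ, ∀ P : Fin d → Place K F, Function.Injective P →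
      ht (plucker fun i => E.pt (P i)) ≤
        (∑ i, ht (E.pt (P i))) - (∑ i, ∑ j, if i < j then hD E (P i) (P j) else 0) + C :=
    fun d => vdm_aux E hE hL d₀ hd₀ d (by omega)
  choose Cf hCf using h
  refine ⟨∑ d, |Cf d|, fun d P hd hP => ?_⟩
  have h1 := hCf ⟨d, by omega⟩ P hP
  have h2 : Cf ⟨d, by omega⟩ ≤ ∑ d, |Cf d| :=
    (le_abs_self _).trans (Finset.single_le_sum (f := fun d => |Cf d|)
      (fun _ _ => abs_nonneg _) (Finset.mem_univ _))
  linarith

/-- (NC) is trivial for `E₁ = E₂`. -/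
theorem nc (E : EmbData K F) : NCStatement E E :=
  ⟨0, fun P => by simp⟩

/-- **THE WALL**: the contract for one embedding of degree `m ≥ 4g + 1`, from the leaves and
`(GAUSS)`. -/
theorem contract [Algebra.IsAlgebraic ℚ K] (E : EmbData K F) (hE : Big E)
    (hL : Leaves E) (hG : GAUSSStatement E) (d₀ : ℕ) (hd : d₀ + 2 * genusR K F ≤ E.m + 1) :
    Contract E E d₀ where
  vinf_eq := rfl
  e3 := e3 E hE hL
  adj := adj E hE hL
  vdm := vdm E hE hL d₀ hd
  gauss := hG
  nc := nc E

end Fermat.Agent.S17.Wall
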